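import Mathlib
import Fermat.Agent.S24.FFDeg

/-!
# S27, part A1: the value `eval v f : K` of a function at a place
Owner: helper84.

`K` algebraically closed, `F / K` a function field in one variable (`IsFF1`).
`eval v f` is the residue of `f` at `v` (junk value `0` if `f` has a pole at `v`).
-/

set_option autoImplicit false

noncomputable section

namespace Fermat.Agent.S27

open AlgebraicCurve IntermediateField Polynomial
open Fermat.Agent.S24.FF

variable {K F : Type*} [Field K] [Field F] [Algebra K F] [IsAlgClosed K] [IsFF1 K F]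

/-- `K ≃ κ(v)`. -/
def resEquiv (v : Place K F) : K ≃ₐ[K] v.ResidueField :=
  AlgEquiv.ofBijective (Algebra.ofId K v.ResidueField)
    ⟨(algebraMap K v.ResidueField).injective, algebraMap_residueField_surjective v⟩

/-- evaluation at a place, as a `K`-algebra homomorphism `O_v → K`. -/
def evalHom (v : Place K F) : v.toValuationSubring →ₐ[K] K :=
  (resEquiv v).symm.toAlgHom.comp (IsScalarTower.toAlgHom K v.toValuationSubring v.ResidueField)

/-- the value of `f` at `v` (junk value `0` at a pole). -/
def eval (v : Place K F) (f : F) : K :=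
  open Classical in if h : f ∈ v.toValuationSubring then evalHom v ⟨f, h⟩ else 0

variable (v : Place K F)

theorem eval_of_mem {f : F} (h : f ∈ v.toValuationSubring) : eval v f = evalHom v ⟨f, h⟩ :=
  dif_pos h

theorem eval_coe (f : v.toValuationSubring) : eval v (f : F) = evalHom v f :=
  eval_of_mem v f.2

theorem eval_of_ord_neg {f : F} (h : v.ord f < 0) : eval v f = 0 := by
  refine dif_neg fun hm => ?_
  have := ord_nonneg_of_mem v hm
  omega

theorem evalHom_eq_zero_iff (f : v.toValuationSubring) :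
    evalHom v f = 0 ↔ f ∈ IsLocalRing.maximalIdeal v.toValuationSubring := by
  rw [← IsLocalRing.residue_eq_zero_iff]
  show (resEquiv v).symm (IsLocalRing.residue _ f) = 0 ↔ _
  exact map_eq_zero_iff _ (resEquiv v).symm.injective

omit [IsAlgClosed K] [IsFF1 K F] in
theorem mem_maximalIdeal_iff (f : v.toValuationSubring) :
    f ∈ IsLocalRing.maximalIdeal v.toValuationSubring ↔ (f : F) = 0 ∨ 0 < v.ord (f : F) := by
  rw [IsLocalRing.mem_maximalIdeal, mem_nonunits_iff]
  constructor
  · intro hu
    by_contra hcon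
    push Not at hcon
    obtain ⟨h0, h1⟩ := hcon
    have h2 := ord_nonneg_of_mem v f.2
    have h3 : v.ord (f : F) = 0 := le_antisymm h1 h2
    apply hu
    have hinv : (f : F)⁻¹ ∈ v.toValuationSubring := by
      apply mem_of_ord_nonneg
      rw [v.ord_inv, h3]; simp
    exact IsUnit.of_mul_eq_one ⟨(f : F)⁻¹, hinv⟩ (Subtype.ext (mul_inv_cancel₀ h0))
  · rintro (h | h) hu
    · have : f = 0 := Subtype.ext h
      rw [this] at hu
      exact not_isUnit_zero hu
    · have h0 := v.ord_coe_unit hu.unit
      rw [IsUnit.unit_spec] at h0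
      omega

@[simp] theorem eval_algebraMap (c : K) : eval v (algebraMap K F c) = c := by
  rw [eval_of_mem v (v.algebraMap_mem' c)]
  exact (evalHom v).commutes c

@[simp] theorem eval_zero : eval v (0 : F) = 0 := by
  simpa using eval_algebraMap v (0 : K)

@[simp] theorem eval_one : eval v (1 : F) = 1 := by
  simpa using eval_algebraMap v (1 : K)

theorem eval_add {f g : F} (hf : 0 ≤ v.ord f) (hg : 0 ≤ v.ord g) :
    eval v (f + g) = eval v f + eval v g := by
  have hf' := mem_of_ord_nonneg v hf
  have hg' := mem_of_ord_nonneg v hg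
  rw [eval_of_mem v hf', eval_of_mem v hg', eval_of_mem v (add_mem hf' hg'), ← map_add]
  rfl

theorem eval_mul {f g : F} (hf : 0 ≤ v.ord f) (hg : 0 ≤ v.ord g) :
    eval v (f * g) = eval v f * eval v g := by
  have hf' := mem_of_ord_nonneg v hf
  have hg' := mem_of_ord_nonneg v hg
  rw [eval_of_mem v hf', eval_of_mem v hg', eval_of_mem v (mul_mem hf' hg'), ← map_mul]
  rfl

theorem eval_neg (f : F) : eval v (-f) = -eval v f := by
  by_cases hf : f ∈ v.toValuationSubring
  · rw [eval_of_mem v hf, eval_of_mem v (neg_mem hf), ← map_neg]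
    rfl
  · have h1 : -f ∉ v.toValuationSubring := fun h => hf (by simpa using neg_mem h)
    rw [eval, eval, dif_neg hf, dif_neg h1, neg_zero]

theorem eval_sub {f g : F} (hf : 0 ≤ v.ord f) (hg : 0 ≤ v.ord g) :
    eval v (f - g) = eval v f - eval v g := by
  rw [sub_eq_add_neg, eval_add v hf (by rwa [ord_neg]), eval_neg, sub_eq_add_neg]

theorem eval_pow {f : F} (hf : 0 ≤ v.ord f) (n : ℕ) : eval v (f ^ n) = eval v f ^ n := by
  have hf' := mem_of_ord_nonneg v hf
  rw [eval_of_mem v hf', eval_of_mem v (pow_mem hf' n), ← map_pow]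
  rfl

theorem eval_smul (c : K) (f : F) : eval v (c • f) = c * eval v f := by
  rcases eq_or_ne c 0 with rfl | hc
  · simp
  by_cases hf : f ∈ v.toValuationSubring
  · rw [Algebra.smul_def, eval_mul v (ord_algebraMap v c).ge (ord_nonneg_of_mem v hf),
      eval_algebraMap]
  · have h1 : c • f ∉ v.toValuationSubring := by
      intro h
      apply hf
      have := mul_mem (v.algebraMap_mem' c⁻¹) h
      rwa [Algebra.smul_def, ← mul_assoc, ← map_mul, inv_mul_cancel₀ hc, map_one, one_mul] at this
    rw [eval, eval, dif_neg hf, dif_neg h1, mul_zero]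

theorem eval_eq_zero_iff {f : F} (hf : 0 ≤ v.ord f) : eval v f = 0 ↔ f = 0 ∨ 0 < v.ord f := by
  rw [eval_of_mem v (mem_of_ord_nonneg v hf), evalHom_eq_zero_iff, mem_maximalIdeal_iff]

theorem eval_eq_zero_of_ord_pos {f : F} (hf : 0 < v.ord f) : eval v f = 0 :=
  (eval_eq_zero_iff v hf.le).mpr (Or.inr hf)

theorem eval_ne_zero_of_ord_eq_zero {f : F} (hf0 : f ≠ 0) (hf : v.ord f = 0) : eval v f ≠ 0 := by
  rw [Ne, eval_eq_zero_iff v hf.ge]
  push Not
  exact ⟨hf0, hf.le⟩

theorem eval_eq_iff {f : F} (hf : 0 ≤ v.ord f) (c : K) :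
    eval v f = c ↔ f = algebraMap K F c ∨ 0 < v.ord (f - algebraMap K F c) := by
  have hmem : f - algebraMap K F c ∈ v.toValuationSubring :=
    sub_mem (mem_of_ord_nonneg v hf) (v.algebraMap_mem' c)
  rw [← sub_eq_zero, ← eval_algebraMap v c, ← eval_sub v hf (ord_algebraMap v c).ge,
    eval_algebraMap, eval_eq_zero_iff v (ord_nonneg_of_mem v hmem), sub_eq_zero]

/-- `f - f(v)` vanishes at `v`. -/
theorem sub_eval_eq_zero_or_ord_pos {f : F} (hf : 0 ≤ v.ord f) :
    f = algebraMap K F (eval v f) ∨ 0 < v.ord (f - algebraMap K F (eval v f)) :=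
  (eval_eq_iff v hf _).mp rfl

theorem eval_eq_of_ord_sub_pos {f : F} {c : K} (h : 0 < v.ord (f - algebraMap K F c)) :
    eval v f = c := by
  have hmem : f ∈ v.toValuationSubring := by
    have := add_mem (mem_of_ord_nonneg v h.le) (v.algebraMap_mem' c)
    rwa [sub_add_cancel] at this
  exact (eval_eq_iff v (ord_nonneg_of_mem v hmem) c).mpr (Or.inr h)

omit [IsAlgClosed K] [IsFF1 K F] in
theorem ord_nonneg_of_ord_sub_pos {f : F} {c : K} (h : 0 < v.ord (f - algebraMap K F c)) :
    0 ≤ v.ord f := by
  have := add_mem (mem_of_ord_nonneg v h.le) (v.algebraMap_mem' c)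
  rw [sub_add_cancel] at this
  exact ord_nonneg_of_mem v this

theorem eval_inv {f : F} (hf : v.ord f = 0) : eval v f⁻¹ = (eval v f)⁻¹ := by
  rcases eq_or_ne f 0 with rfl | hf0
  · simp
  have h1 : eval v (f * f⁻¹) = eval v f * eval v f⁻¹ :=
    eval_mul v hf.ge (by rw [v.ord_inv, hf]; simp)
  rw [mul_inv_cancel₀ hf0, eval_one] at h1
  exact eq_inv_of_mul_eq_one_right h1.symm

theorem eval_div {f g : F} (hf : 0 ≤ v.ord f) (hg : v.ord g = 0) :
    eval v (f / g) = eval v f / eval v g := by
  rw [div_eq_mul_inv, eval_mul v hf (by rw [v.ord_inv, hg]; simp), eval_inv v hg, div_eq_mul_inv]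

omit [IsAlgClosed K] [IsFF1 K F] in
theorem ord_aeval_nonneg {f : F} (hf : 0 ≤ v.ord f) (p : K[X]) : 0 ≤ v.ord (aeval f p) := by
  apply ord_nonneg_of_mem
  have hf' := mem_of_ord_nonneg v hf
  have : aeval f p = ((aeval (⟨f, hf'⟩ : v.toValuationSubring) p : v.toValuationSubring) : F) := by
    have h := Polynomial.aeval_algebraMap_apply F (⟨f, hf'⟩ : v.toValuationSubring) p
    exact h
  rw [this]
  exact Subtype.property _

theorem eval_aeval {f : F} (hf : 0 ≤ v.ord f) (p : K[X]) :
    eval v (aeval f p) = p.eval (eval v f) := by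
  have hf' := mem_of_ord_nonneg v hf
  have h1 : aeval f p = ((aeval (⟨f, hf'⟩ : v.toValuationSubring) p : v.toValuationSubring) : F) :=
    Polynomial.aeval_algebraMap_apply F (⟨f, hf'⟩ : v.toValuationSubring) p
  rw [h1, eval_coe, ← Polynomial.aeval_algHom_apply, eval_of_mem v hf', Polynomial.coe_aeval_eq_eval]

theorem eval_sum {ι : Type*} (s : Finset ι) (f : ι → F) (hf : ∀ i ∈ s, 0 ≤ v.ord (f i)) :
    eval v (∑ i ∈ s, f i) = ∑ i ∈ s, eval v (f i) := by
  have hmem : ∀ i ∈ s, f i ∈ v.toValuationSubring := fun i hi => mem_of_ord_nonneg v (hf i hi)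
  classical
  induction s using Finset.induction_on with
  | empty => simp
  | insert a s ha ih =>
    rw [Finset.sum_insert ha, Finset.sum_insert ha,
      eval_add v (hf a (Finset.mem_insert_self a s))
        (ord_nonneg_of_mem v (sum_mem fun i hi => hmem i (Finset.mem_insert_of_mem hi))),
      ih (fun i hi => hf i (Finset.mem_insert_of_mem hi))
        (fun i hi => hmem i (Finset.mem_insert_of_mem hi))]

theorem eval_prod {ι : Type*} (s : Finset ι) (f : ι → F) (hf : ∀ i ∈ s, 0 ≤ v.ord (f i)) :
    eval v (∏ i ∈ s, f i) = ∏ i ∈ s, eval v (f i) := by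
  have hmem : ∀ i ∈ s, f i ∈ v.toValuationSubring := fun i hi => mem_of_ord_nonneg v (hf i hi)
  classical
  induction s using Finset.induction_on with
  | empty => simp
  | insert a s ha ih =>
    rw [Finset.prod_insert ha, Finset.prod_insert ha,
      eval_mul v (hf a (Finset.mem_insert_self a s))
        (ord_nonneg_of_mem v (prod_mem fun i hi => hmem i (Finset.mem_insert_of_mem hi))),
      ih (fun i hi => hf i (Finset.mem_insert_of_mem hi))
        (fun i hi => hmem i (Finset.mem_insert_of_mem hi))]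

end Fermat.Agent.S27
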