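import Mathlib
import Fermat.Agent.S24.FFSum
import Fermat.Agent.S27.A.Eval

/-!
# S27, part A2: weak approximation for places of a function field
Owner: helper84.
-/

set_option autoImplicit false

noncomputable section

namespace Fermat.Agent.S27

open AlgebraicCurve IsDedekindDomain IntermediateField Polynomial WithZero
open Fermat.Agent.S24.FF
open scoped IntermediateField.algebraAdjoinAdjoin

section Abstract

variable {K F : Type*} [Field K] [Field F] [Algebra K F]
variable {B : Type*} [CommRing B] [IsDedekindDomain B] [Algebra B F] [IsFractionRing B F]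
  [Algebra K B] [IsScalarTower K B F]

theorem mem_pow_primeOfPlace_iff (v : Place K F)
    (hB : ∀ b : B, algebraMap B F b ∈ v.toValuationSubring) (b : B) (n : ℕ) :
    b ∈ (primeOfPlace v hB).asIdeal ^ n ↔ b = 0 ∨ (n : ℤ) ≤ v.ord (algebraMap B F b) := by
  rcases eq_or_ne b 0 with rfl | hb
  · simp
  have hb' : algebraMap B F b ≠ 0 := by simpa using hb
  rw [← HeightOneSpectrum.intValuation_le_pow_iff_mem,
    ← HeightOneSpectrum.valuation_of_algebraMap (K := F)]
  have h1 := ord_ofHeightOneSpectrum (K := K) (F := F) (primeOfPlace v hB) (algebraMap B F b)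
  rw [ofHeightOneSpectrum_primeOfPlace] at h1
  have h0 : (primeOfPlace v hB).valuation F (algebraMap B F b) ≠ 0 :=
    (Valuation.ne_zero_iff _).mpr hb'
  rw [← exp_log h0, exp_le_exp, or_iff_right hb, h1]
  omega

theorem approx_aux (S : Finset (Place K F))
    (hS : ∀ v ∈ S, ∀ b : B, algebraMap B F b ∈ v.toValuationSubring)
    (a : Place K F → F) (n : Place K F → ℤ) :
    ∃ f : F, ∀ v ∈ S, f = a v ∨ n v ≤ v.ord (f - a v) := by
  classical
  obtain ⟨s, hs⟩ := IsLocalization.exist_integer_multiples (nonZeroDivisors B) S a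
  choose! b hb using hs
  have hs0 : algebraMap B F (s : B) ≠ 0 := by
    simp
  obtain ⟨y, hy⟩ := IsDedekindDomain.exists_forall_sub_mem_ideal
    (s := (Finset.univ : Finset {v // v ∈ S}))
    (fun v => (primeOfPlace v.1 (hS v.1 v.2)).asIdeal)
    (fun v => (n v.1 + v.1.ord (algebraMap B F (s : B))).toNat)
    (fun v _ => (primeOfPlace v.1 (hS v.1 v.2)).prime)
    (fun v _ w _ hvw h => hvw (by
      have h1 : primeOfPlace v.1 (hS v.1 v.2) = primeOfPlace w.1 (hS w.1 w.2) :=
        HeightOneSpectrum.ext h
      apply Subtype.ext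
      rw [← ofHeightOneSpectrum_primeOfPlace v.1 (hS v.1 v.2), h1,
        ofHeightOneSpectrum_primeOfPlace w.1 (hS w.1 w.2)]))
    (fun v => b v.1.1)
  refine ⟨algebraMap B F y / algebraMap B F (s : B), fun v hv => ?_⟩
  have h1 := hy ⟨v, hv⟩ (Finset.mem_univ _)
  simp only at h1
  rw [mem_pow_primeOfPlace_iff] at h1
  have hbv : algebraMap B F (b v) = algebraMap B F (s : B) * a v := by
    rw [hb v hv, Algebra.smul_def]
  have hav : a v = algebraMap B F (b v) / algebraMap B F (s : B) := by
    rw [hbv]; field_simp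
  rcases h1 with h1 | h1
  · left
    rw [hav, sub_eq_zero.mp h1]
  · rcases eq_or_ne y (b v) with h2 | h2
    · left; rw [hav, h2]
    · right
      have h3 : algebraMap B F y / algebraMap B F (s : B) - a v
          = algebraMap B F (y - b v) * (algebraMap B F (s : B))⁻¹ := by
        rw [hav, map_sub]; field_simp
      have h4 : algebraMap B F (y - b v) ≠ 0 := by
        simpa [sub_eq_zero] using h2
      rw [h3, v.ord_mul h4 (inv_ne_zero hs0), v.ord_inv]
      have := Int.self_le_toNat (n v + v.ord (algebraMap B F (s : B)))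
      omega

end Abstract

variable {K F : Type*} [Field K] [Field F] [Algebra K F] [IsAlgClosed K] [IsFF1 K F]

/-- for a transcendental `x` and finitely many places there is a coordinate `t = 1/(x - c)`
regular at all of them. -/
theorem exists_regular_of_transcendental (x : F) (hx : Transcendental K x)
    (S : Finset (Place K F)) :
    ∃ t : F, Transcendental K t ∧ K⟮t⟯ = K⟮x⟯ ∧ ∀ v ∈ S, 0 ≤ v.ord t := by
  classical
  obtain ⟨c, hc⟩ := Infinite.exists_notMem_finset (S.image fun v => eval v x)
  refine ⟨(x - algebraMap K F c)⁻¹, transcendental_inv (transcendental_sub_const hx c), ?_,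
    fun v hv => ?_⟩
  · rw [adjoin_simple_inv, adjoin_simple_sub_const]
  · rw [v.ord_inv]
    have hne : x - algebraMap K F c ≠ 0 := by
      intro h
      apply transcendental_sub_const hx c
      rw [h]
      exact isAlgebraic_zero
    rcases lt_or_ge (v.ord x) 0 with h | h
    · have h1 : v.ord (x + -algebraMap K F c) = v.ord x :=
        ord_add_eq_of_lt v (ne_zero_of_ord_ne_zero v h.ne) (by rw [ord_neg, ord_algebraMap]; exact h)
      rw [sub_eq_add_neg, h1]
      omega
    · have h1 : eval v x ≠ c := by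
        intro h2
        exact hc (Finset.mem_image.mpr ⟨v, hv, h2⟩)
      rw [Ne, eval_eq_iff v h c] at h1
      push Not at h1
      omega

omit [IsFF1 K F] in
theorem transcendental_of_ord_ne_zero' (v : Place K F) {t : F} (ht : v.ord t ≠ 0) :
    Transcendental K t := by
  apply transcendental_of_forall_ne
  rintro c rfl
  exact ht (ord_algebraMap v c)

variable [CharZero K]

/-- **Weak approximation.** -/
theorem weak_approximation (S : Finset (Place K F)) (a : Place K F → F) (n : Place K F → ℤ) :
    ∃ f : F, ∀ v ∈ S, f = a v ∨ n v ≤ v.ord (f - a v) := by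
  rcases S.eq_empty_or_nonempty with rfl | ⟨v₀, hv₀⟩
  · exact ⟨0, by simp⟩
  obtain ⟨x, hx⟩ := exists_ord_eq_one v₀
  have hxtr : Transcendental K x := transcendental_of_ord_ne_zero' v₀ (by omega)
  obtain ⟨t, ht, -, htS⟩ := exists_regular_of_transcendental x hxtr S
  have : FiniteDimensional K⟮t⟯ F := IsFF1.finite t ht
  have := isPrincipalIdealRing_adjoin t ht
  have : CharZero K⟮t⟯ := charZero_of_injective_algebraMap (algebraMap K K⟮t⟯).injective
  have : IsDedekindDomain (integralClosure (Algebra.adjoin K {t}) F) :=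
    integralClosure.isDedekindDomain (Algebra.adjoin K {t}) K⟮t⟯ F
  have : IsFractionRing (integralClosure (Algebra.adjoin K {t}) F) F :=
    integralClosure.isFractionRing_of_finite_extension K⟮t⟯ F
  exact approx_aux (B := integralClosure (Algebra.adjoin K {t}) F) S
    (fun v hv b => mem_of_isIntegral v (Algebra.adjoin K {t})
      (adjoin_le_of_ord_nonneg v (htS v hv)) (b := (b : F)) b.2) a n

/-- prescribed orders at finitely many places. -/
theorem exists_ord_eq (S : Finset (Place K F)) (n : Place K F → ℤ) :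
    ∃ f : F, f ≠ 0 ∧ ∀ v ∈ S, v.ord f = n v := by
  classical
  choose π hπ using fun v : Place K F => exists_ord_eq_one v
  have hπ0 : ∀ v, π v ≠ 0 := fun v => ne_zero_of_ord_ne_zero v (by rw [hπ]; omega)
  have hord : ∀ v, v.ord (π v ^ n v) = n v := fun v => by rw [v.ord_zpow, hπ, mul_one]
  rcases S.eq_empty_or_nonempty with rfl | ⟨v₀, hv₀⟩
  · exact ⟨1, one_ne_zero, by simp⟩
  obtain ⟨f, hf⟩ := weak_approximation S (fun v => π v ^ n v) (fun v => n v + 1)
  have key : ∀ v ∈ S, f ≠ 0 ∧ v.ord f = n v := by
    intro v hv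
    rcases hf v hv with h | h
    · rw [h]; exact ⟨zpow_ne_zero _ (hπ0 v), hord v⟩
    · have h1 : v.ord (π v ^ n v + (f - π v ^ n v)) = v.ord (π v ^ n v) :=
        ord_add_eq_of_lt v (zpow_ne_zero _ (hπ0 v)) (by rw [hord]; omega)
      rw [add_sub_cancel, hord] at h1
      refine ⟨?_, h1⟩
      rintro rfl
      rw [zero_sub, ord_neg, hord] at h
      omega
  exact ⟨f, (key v₀ hv₀).1, fun v hv => (key v hv).2⟩

/-- prescribed values at finitely many places. -/
theorem exists_eval_eq (S : Finset (Place K F)) (c : Place K F → K) :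
    ∃ f : F, ∀ v ∈ S, 0 ≤ v.ord f ∧ eval v f = c v := by
  obtain ⟨f, hf⟩ := weak_approximation S (fun v => algebraMap K F (c v)) (fun _ => 1)
  refine ⟨f, fun v hv => ?_⟩
  rcases hf v hv with h | h
  · rw [h]; exact ⟨(ord_algebraMap v _).ge, eval_algebraMap v _⟩
  · have h' : 0 < v.ord (f - algebraMap K F (c v)) := by omega
    exact ⟨ord_nonneg_of_ord_sub_pos v h', eval_eq_of_ord_sub_pos v h'⟩

/-- a function regular on `S` taking pairwise distinct values on `S`. -/
theorem exists_separating (S : Finset (Place K F)) :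
    ∃ f : F, (∀ v ∈ S, 0 ≤ v.ord f) ∧ Set.InjOn (fun v => eval v f) (S : Set (Place K F)) := by
  classical
  obtain ⟨e⟩ : Nonempty ({v // v ∈ S} ↪ K) := ⟨Function.Embedding.trans
    (Fintype.equivFin {v // v ∈ S}).toEmbedding
    ⟨fun i => ((i : ℕ) : K), fun i j h => Fin.ext (Nat.cast_injective h)⟩⟩
  obtain ⟨f, hf⟩ := exists_eval_eq S (fun v => if h : v ∈ S then e ⟨v, h⟩ else 0)
  refine ⟨f, fun v hv => (hf v hv).1, fun v hv w hw h => ?_⟩
  simp only at h
  have hv' : v ∈ S := hv
  have hw' : w ∈ S := hw
  rw [(hf v hv).2, (hf w hw).2, dif_pos hv', dif_pos hw'] at h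
  exact congrArg Subtype.val (e.injective h)

end Fermat.Agent.S27
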