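import Mathlib
import Fermat.Agent.S27.A.Eval

/-!
# S27, part A3: places at smooth points of a plane model
Owner: helper84.

`G : K[X][Y]` a polynomial relation `G(t, z) = 0` between two generators `t, z` of `F / K`.
At a point `(τ, c)` with `∂G/∂Y (τ, c) ≠ 0` there is at most one place, and `t - τ` is a
uniformizer there.
-/

set_option autoImplicit false

noncomputable section

namespace Fermat.Agent.S27

open AlgebraicCurve IntermediateField Polynomial Polynomial.Bivariate
open Fermat.Agent.S24.FF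

section Poly

variable {K : Type*} [Field K]

theorem exists_decomp (P : K[X][Y]) (τ c : K) (h : P.evalEval τ c = 0) :
    ∃ (p : K[X]) (P₂ : K[X][Y]), P = C ((X - C τ) * p) + (Y - C (C c)) * P₂ := by
  obtain ⟨P₂, hP₂⟩ := Polynomial.X_sub_C_dvd_sub_C_eval (a := (C c : K[X])) (p := P)
  have hroot : (P.eval (C c)).IsRoot τ := h
  obtain ⟨p, hp⟩ := dvd_iff_isRoot.mpr hroot
  exact ⟨p, P₂, by rw [← hp, ← hP₂]; ring⟩

theorem evalEval_derivative_of_decomp {G G₂ : K[X][Y]} {g : K[X]} {c : K}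
    (hG : G = C g + (Y - C (C c)) * G₂) (τ : K) :
    (derivative G).evalEval τ c = G₂.evalEval τ c := by
  subst hG
  simp [derivative_mul, evalEval_add, evalEval_mul, evalEval_sub]

theorem key_identity {G G₂ P P₂ : K[X][Y]} {g p : K[X]} {τ c : K}
    (hG : G = C ((X - C τ) * g) + (Y - C (C c)) * G₂)
    (hP : P = C ((X - C τ) * p) + (Y - C (C c)) * P₂) :
    G₂ * P = C (X - C τ) * (C p * G₂ - C g * P₂) + P₂ * G := by
  subst hG hP
  simp only [C_mul]
  ring

end Poly

variable {K F : Type*} [Field K] [Field F] [Algebra K F] [IsAlgClosed K] [IsFF1 K F]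

/-- polynomials in two functions regular at `w` are regular at `w`, with the expected value. -/
theorem ord_aevalAeval_nonneg_and_eval (w : Place K F) {t z : F} (ht : 0 ≤ w.ord t)
    (hz : 0 ≤ w.ord z) (P : K[X][Y]) :
    0 ≤ w.ord (aevalAeval t z P) ∧
      eval w (aevalAeval t z P) = P.evalEval (eval w t) (eval w z) := by
  have ht' := mem_of_ord_nonneg w ht
  have hz' := mem_of_ord_nonneg w hz
  have h1 : (IsScalarTower.toAlgHom K w.toValuationSubring F).comp
      (aevalAeval (⟨t, ht'⟩ : w.toValuationSubring) ⟨z, hz'⟩) = aevalAeval t z := by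
    apply (aevalAevalEquiv K F).symm.injective
    apply Prod.ext
    · simp only [aevalAevalEquiv_symm_apply, AlgHom.comp_apply, aevalAeval_X]
      rfl
    · simp only [aevalAevalEquiv_symm_apply, AlgHom.comp_apply, aevalAeval_Y]
      rfl
  have h2 : (evalHom w).comp (aevalAeval (⟨t, ht'⟩ : w.toValuationSubring) ⟨z, hz'⟩)
      = aevalAeval (eval w t) (eval w z) := by
    apply (aevalAevalEquiv K K).symm.injective
    apply Prod.ext
    · simp only [aevalAevalEquiv_symm_apply, AlgHom.comp_apply, aevalAeval_X]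
      exact (eval_of_mem w ht').symm
    · simp only [aevalAevalEquiv_symm_apply, AlgHom.comp_apply, aevalAeval_Y]
      exact (eval_of_mem w hz').symm
  have h3 : aevalAeval t z P
      = ((aevalAeval (⟨t, ht'⟩ : w.toValuationSubring) ⟨z, hz'⟩ P : w.toValuationSubring) : F) := by
    rw [← h1]; rfl
  constructor
  · rw [h3]; exact ord_nonneg_of_mem w (Subtype.property _)
  · rw [h3, eval_coe, ← coe_aevalAeval_eq_evalEval, ← h2]
    rfl

/-- a place `w` lies over the point `(τ, c)` of the plane model given by `t, z`. -/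
structure LiesOver (w : Place K F) (t z : F) (τ c : K) : Prop where
  ord_t : 0 ≤ w.ord t
  ord_z : 0 ≤ w.ord z
  eval_t : eval w t = τ
  eval_z : eval w z = c

namespace LiesOver

variable {w : Place K F} {t z : F} {τ c : K}

theorem ord_nonneg (h : LiesOver w t z τ c) (P : K[X][Y]) : 0 ≤ w.ord (aevalAeval t z P) :=
  (ord_aevalAeval_nonneg_and_eval w h.ord_t h.ord_z P).1

theorem eval_eq (h : LiesOver w t z τ c) (P : K[X][Y]) :
    eval w (aevalAeval t z P) = P.evalEval τ c := by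
  rw [(ord_aevalAeval_nonneg_and_eval w h.ord_t h.ord_z P).2, h.eval_t, h.eval_z]

theorem evalEval_eq_zero (h : LiesOver w t z τ c) {P : K[X][Y]} (hP : aevalAeval t z P = 0) :
    P.evalEval τ c = 0 := by
  rw [← h.eval_eq, hP, eval_zero]

theorem ord_eq_zero (h : LiesOver w t z τ c) {P : K[X][Y]} (hP : P.evalEval τ c ≠ 0) :
    aevalAeval t z P ≠ 0 ∧ w.ord (aevalAeval t z P) = 0 := by
  rw [← h.eval_eq, Ne, eval_eq_zero_iff w (h.ord_nonneg P)] at hP
  push Not at hP
  exact ⟨hP.1, le_antisymm hP.2 (h.ord_nonneg P)⟩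

theorem ord_sub_pos (h : LiesOver w t z τ c) (ht : t ≠ algebraMap K F τ) :
    0 < w.ord (t - algebraMap K F τ) :=
  ((eval_eq_iff w h.ord_t τ).mp h.eval_t).resolve_left ht

end LiesOver

section SmoothPoint

variable {t z : F} {G : K[X][Y]} {τ c : K}

omit [IsAlgClosed K] in
/-- the division step, as a polynomial identity. -/
theorem exists_division (hG0 : G.evalEval τ c = 0) (hsm : (derivative G).evalEval τ c ≠ 0) :
    ∃ Q : K[X][Y], Q.evalEval τ c ≠ 0 ∧ ∀ P : K[X][Y], P.evalEval τ c = 0 →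
      ∃ P₁ R : K[X][Y], Q * P = C (X - C τ) * P₁ + R * G := by
  obtain ⟨g, G₂, hG⟩ := exists_decomp G τ c hG0
  refine ⟨G₂, by rwa [← evalEval_derivative_of_decomp hG τ], fun P hP => ?_⟩
  obtain ⟨p, P₂, hP'⟩ := exists_decomp P τ c hP
  exact ⟨_, _, key_identity hG hP'⟩

omit [IsAlgClosed K] [IsFF1 K F] in
theorem aevalAeval_C_X_sub_C (t z : F) (τ : K) :
    aevalAeval t z (C (X - C τ) : K[X][Y]) = t - algebraMap K F τ := by
  rw [aevalAeval_C]; simp

/-- **(K)** a relation `P(t, z) = 0` is, locally at a smooth point, infinitely divisible by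
`X - τ` modulo `G`. -/
theorem exists_pow_mul_eq {w : Place K F} (hw : LiesOver w t z τ c)
    (ht : t ≠ algebraMap K F τ) (hG : aevalAeval t z G = 0)
    (hsm : (derivative G).evalEval τ c ≠ 0) :
    ∃ Q : K[X][Y], Q.evalEval τ c ≠ 0 ∧ ∀ P : K[X][Y], aevalAeval t z P = 0 → ∀ k : ℕ,
      ∃ Pk Rk : K[X][Y], Q ^ k * P = C ((X - C τ) ^ k) * Pk + Rk * G := by
  obtain ⟨Q, hQ, hdiv⟩ := exists_division (hw.evalEval_eq_zero hG) hsm
  refine ⟨Q, hQ, fun P hP k => ?_⟩
  suffices H : ∃ Pk Rk : K[X][Y], aevalAeval t z Pk = 0 ∧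
      Q ^ k * P = C ((X - C τ) ^ k) * Pk + Rk * G by
    obtain ⟨Pk, Rk, -, h⟩ := H
    exact ⟨Pk, Rk, h⟩
  induction k with
  | zero => exact ⟨P, 0, hP, by simp⟩
  | succ k ih =>
    obtain ⟨Pk, Rk, hPk, h⟩ := ih
    obtain ⟨P', R', h'⟩ := hdiv Pk (hw.evalEval_eq_zero hPk)
    refine ⟨P', C ((X - C τ) ^ k) * R' + Q * Rk, ?_, ?_⟩
    · have h1 := congrArg (aevalAeval t z) h'
      rw [map_mul, map_add, map_mul, map_mul, hPk, hG, mul_zero, mul_zero, add_zero,
        aevalAeval_C_X_sub_C] at h1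
      exact (mul_eq_zero.mp h1.symm).resolve_left (sub_ne_zero.mpr ht)
    · rw [pow_succ, mul_assoc, mul_comm Q P, ← mul_assoc, h, add_mul, mul_assoc, mul_comm Pk Q, h',
        pow_succ, C_mul]
      ring

/-- factorisation of a polynomial function at a smooth point. -/
theorem exists_factorisation {w : Place K F} (hw : LiesOver w t z τ c)
    (ht : t ≠ algebraMap K F τ) (hG : aevalAeval t z G = 0)
    (hsm : (derivative G).evalEval τ c ≠ 0) (P : K[X][Y]) (hP : aevalAeval t z P ≠ 0) :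
    ∃ (k : ℕ) (U Q : K[X][Y]), U.evalEval τ c ≠ 0 ∧ Q.evalEval τ c ≠ 0 ∧
      aevalAeval t z Q * aevalAeval t z P = (t - algebraMap K F τ) ^ k * aevalAeval t z U := by
  obtain ⟨Q, hQ, hdiv⟩ := exists_division (hw.evalEval_eq_zero hG) hsm
  have hπ := hw.ord_sub_pos ht
  have hπ0 : t - algebraMap K F τ ≠ 0 := sub_ne_zero.mpr ht
  obtain ⟨n, hn⟩ : ∃ n : ℕ, w.ord (aevalAeval t z P) < n :=
    ⟨(w.ord (aevalAeval t z P)).toNat + 1, by
      have := Int.self_le_toNat (w.ord (aevalAeval t z P)); push_cast; omega⟩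
  induction n generalizing P with
  | zero =>
    have := hw.ord_nonneg P
    simp only [Nat.cast_zero] at hn
    omega
  | succ n ih =>
    by_cases h0 : P.evalEval τ c = 0
    · obtain ⟨P₁, R, h⟩ := hdiv P h0
      have h1 := congrArg (aevalAeval t z) h
      rw [map_mul, map_add, map_mul, map_mul, hG, mul_zero, add_zero,
        aevalAeval_C_X_sub_C] at h1
      have hQ' := hw.ord_eq_zero hQ
      have hP₁ : aevalAeval t z P₁ ≠ 0 := by
        intro h2
        rw [h2, mul_zero] at h1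
        exact (mul_ne_zero hQ'.1 hP) h1
      have h2 := congrArg w.ord h1
      rw [w.ord_mul hQ'.1 hP, w.ord_mul hπ0 hP₁, hQ'.2] at h2
      obtain ⟨k, U, Q₁, hU, hQ₁, h3⟩ := ih P₁ hP₁ (by push_cast at hn; omega)
      refine ⟨k + 1, U, Q₁ * Q, hU, by rw [evalEval_mul]; exact mul_ne_zero hQ₁ hQ, ?_⟩
      rw [map_mul, mul_assoc, h1, mul_left_comm, h3, pow_succ]
      ring
    · exact ⟨0, P, 1, h0, by simp, by simp⟩

omit [IsAlgClosed K] [IsFF1 K F] in
theorem mem_range_of_mem_adjoin {f : F} (hf : f ∈ Algebra.adjoin K ({t, z} : Set F)) :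
    ∃ P : K[X][Y], aevalAeval t z P = f := by
  have hle : Algebra.adjoin K ({t, z} : Set F) ≤ (aevalAeval t z : K[X][Y] →ₐ[K] F).range := by
    apply Algebra.adjoin_le
    rintro x (rfl | rfl)
    · exact ⟨C X, aevalAeval_X _ _⟩
    · exact ⟨Y, aevalAeval_Y _ _⟩
  exact hle hf

/-- every nonzero function is `(t - τ)^k` times a unit at every place over the smooth point. -/
theorem exists_zpow_factorisation {w : Place K F} (hw : LiesOver w t z τ c)
    (hgen : IntermediateField.adjoin K ({t, z} : Set F) = ⊤)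
    (ht : t ≠ algebraMap K F τ) (hG : aevalAeval t z G = 0)
    (hsm : (derivative G).evalEval τ c ≠ 0) (f : F) (hf : f ≠ 0) :
    ∃ (k : ℤ) (U V : K[X][Y]), U.evalEval τ c ≠ 0 ∧ V.evalEval τ c ≠ 0 ∧
      f = (t - algebraMap K F τ) ^ k * (aevalAeval t z U / aevalAeval t z V) := by
  have hπ0 : t - algebraMap K F τ ≠ 0 := sub_ne_zero.mpr ht
  have hmem : f ∈ IntermediateField.adjoin K ({t, z} : Set F) := by rw [hgen]; trivial
  obtain ⟨r, hr, s, hs, rfl⟩ := IntermediateField.mem_adjoin_iff_div.mp hmem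
  obtain ⟨R, rfl⟩ := mem_range_of_mem_adjoin hr
  obtain ⟨S, rfl⟩ := mem_range_of_mem_adjoin hs
  have hR : aevalAeval t z R ≠ 0 := fun h => hf (by rw [h, zero_div])
  have hS : aevalAeval t z S ≠ 0 := fun h => hf (by rw [h, div_zero])
  obtain ⟨k₁, U₁, Q₁, hU₁, hQ₁, h₁⟩ := exists_factorisation hw ht hG hsm R hR
  obtain ⟨k₂, U₂, Q₂, hU₂, hQ₂, h₂⟩ := exists_factorisation hw ht hG hsm S hS
  have hQ₁' := (hw.ord_eq_zero hQ₁).1
  have hQ₂' := (hw.ord_eq_zero hQ₂).1
  have hU₁' := (hw.ord_eq_zero hU₁).1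
  have hU₂' := (hw.ord_eq_zero hU₂).1
  refine ⟨(k₁ : ℤ) - k₂, U₁ * Q₂, U₂ * Q₁, by rw [evalEval_mul]; exact mul_ne_zero hU₁ hQ₂,
    by rw [evalEval_mul]; exact mul_ne_zero hU₂ hQ₁, ?_⟩
  have e₁ : aevalAeval t z R = (t - algebraMap K F τ) ^ k₁ * aevalAeval t z U₁ / aevalAeval t z Q₁ := by
    rw [← h₁]; field_simp
  have e₂ : aevalAeval t z S = (t - algebraMap K F τ) ^ k₂ * aevalAeval t z U₂ / aevalAeval t z Q₂ := by
    rw [← h₂]; field_simp
  rw [e₁, e₂, map_mul, map_mul, zpow_sub₀ hπ0, zpow_natCast, zpow_natCast]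
  field_simp

/-- **(U)** at a smooth point of the plane model there is at most one place. -/
theorem place_unique_of_smooth {w w' : Place K F} (hw : LiesOver w t z τ c)
    (hw' : LiesOver w' t z τ c)
    (hgen : IntermediateField.adjoin K ({t, z} : Set F) = ⊤)
    (ht : t ≠ algebraMap K F τ) (hG : aevalAeval t z G = 0)
    (hsm : (derivative G).evalEval τ c ≠ 0) : w = w' := by
  have hπ0 : t - algebraMap K F τ ≠ 0 := sub_ne_zero.mpr ht
  have key : ∀ {u : Place K F}, LiesOver u t z τ c → ∀ (k : ℤ) (U V : K[X][Y]),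
      U.evalEval τ c ≠ 0 → V.evalEval τ c ≠ 0 →
      u.ord ((t - algebraMap K F τ) ^ k * (aevalAeval t z U / aevalAeval t z V))
        = k * u.ord (t - algebraMap K F τ) := by
    intro u hu k U V hU hV
    have hU' := hu.ord_eq_zero hU
    have hV' := hu.ord_eq_zero hV
    rw [u.ord_mul (zpow_ne_zero _ hπ0) (div_ne_zero hU'.1 hV'.1), u.ord_zpow, div_eq_mul_inv,
      u.ord_mul hU'.1 (inv_ne_zero hV'.1), u.ord_inv, hU'.2, hV'.2]
    ring
  apply place_ext_of_ord_nonneg
  intro f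
  rcases eq_or_ne f 0 with rfl | hf
  · simp
  obtain ⟨k, U, V, hU, hV, rfl⟩ := exists_zpow_factorisation hw hgen ht hG hsm f hf
  rw [key hw k U V hU hV, key hw' k U V hU hV]
  have h1 := hw.ord_sub_pos ht
  have h2 := hw'.ord_sub_pos ht
  constructor
  · intro h
    exact mul_nonneg (nonneg_of_mul_nonneg_left h h1) h2.le
  · intro h
    exact mul_nonneg (nonneg_of_mul_nonneg_left h h2) h1.le

/-- at a smooth point `t - τ` is a uniformizer. -/
theorem ord_sub_eq_one_of_smooth {w : Place K F} (hw : LiesOver w t z τ c)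
    (hgen : IntermediateField.adjoin K ({t, z} : Set F) = ⊤)
    (ht : t ≠ algebraMap K F τ) (hG : aevalAeval t z G = 0)
    (hsm : (derivative G).evalEval τ c ≠ 0) : w.ord (t - algebraMap K F τ) = 1 := by
  have hπ0 : t - algebraMap K F τ ≠ 0 := sub_ne_zero.mpr ht
  obtain ⟨π, hπ⟩ := exists_ord_eq_one w
  have hπne : π ≠ 0 := ne_zero_of_ord_ne_zero w (by omega)
  obtain ⟨k, U, V, hU, hV, rfl⟩ := exists_zpow_factorisation hw hgen ht hG hsm π hπne
  have hU' := hw.ord_eq_zero hU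
  have hV' := hw.ord_eq_zero hV
  rw [w.ord_mul (zpow_ne_zero _ hπ0) (div_ne_zero hU'.1 hV'.1), w.ord_zpow, div_eq_mul_inv,
    w.ord_mul hU'.1 (inv_ne_zero hV'.1), w.ord_inv, hU'.2, hV'.2] at hπ
  have h1 := hw.ord_sub_pos ht
  have h2 : w.ord (t - algebraMap K F τ) ∣ 1 := ⟨k, by rw [← hπ]; ring⟩
  exact Int.eq_one_of_dvd_one h1.le h2

end SmoothPoint

end Fermat.Agent.S27
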