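import Mathlib
import Fermat.Prelude.Def_AlgebraicCurve_Repartitions
import Fermat.Agent.S27.A.Smooth

/-!
# S27, part A4: every place is a smooth point of a suitable plane model
Owner: helper84.
-/

set_option autoImplicit false

noncomputable section

namespace Fermat.Agent.S27

open AlgebraicCurve IntermediateField Polynomial Polynomial.Bivariate
open Fermat.Agent.S24.FF
open scoped IntermediateField.algebraAdjoinAdjoin

section OrdGe

variable {K F : Type*} [Field K] [Field F] [Algebra K F]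

/-- `f` vanishes to order at least `n` at `v` (true for `f = 0`). -/
def OrdGe (v : Place K F) (n : ℤ) (f : F) : Prop := f = 0 ∨ n ≤ v.ord f

variable {v : Place K F} {n m : ℤ} {f g : F}

theorem ordGe_iff : OrdGe v n f ↔ v.adicValuation f ≤ WithZero.exp (-n) := by
  rw [Place.adicValuation_le_exp_iff, neg_neg]; rfl

theorem OrdGe.zero : OrdGe v n (0 : F) := Or.inl rfl

theorem OrdGe.of_le (h : n ≤ v.ord f) : OrdGe v n f := Or.inr h

theorem OrdGe.mono (h : OrdGe v n f) (hm : m ≤ n) : OrdGe v m f :=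
  h.imp id (fun h => hm.trans h)

theorem OrdGe.add (hf : OrdGe v n f) (hg : OrdGe v n g) : OrdGe v n (f + g) := by
  rw [ordGe_iff] at *
  exact (Valuation.map_add _ _ _).trans (max_le hf hg)

theorem OrdGe.neg (hf : OrdGe v n f) : OrdGe v n (-f) := by
  rw [ordGe_iff] at *
  rwa [Valuation.map_neg]

theorem OrdGe.sub (hf : OrdGe v n f) (hg : OrdGe v n g) : OrdGe v n (f - g) := by
  rw [sub_eq_add_neg]; exact hf.add hg.neg

theorem OrdGe.mul (hf : OrdGe v n f) (hg : OrdGe v m g) : OrdGe v (n + m) (f * g) := by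
  rcases hf with rfl | hf
  · rw [zero_mul]; exact OrdGe.zero
  rcases hg with rfl | hg
  · rw [mul_zero]; exact OrdGe.zero
  rcases eq_or_ne f 0 with rfl | hf0
  · rw [zero_mul]; exact OrdGe.zero
  rcases eq_or_ne g 0 with rfl | hg0
  · rw [mul_zero]; exact OrdGe.zero
  right
  rw [v.ord_mul hf0 hg0]
  omega

theorem ordGe_zero_iff : OrdGe v 0 f ↔ 0 ≤ v.ord f := by
  constructor
  · rintro (rfl | h)
    · simp
    · exact h
  · exact Or.inr

theorem OrdGe.le_ord (h : OrdGe v n f) (hf : f ≠ 0) : n ≤ v.ord f := h.resolve_left hf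

/-- adding something of larger order does not change the order. -/
theorem ord_add_of_ordGe (hf : f ≠ 0) (hg : OrdGe v (v.ord f + 1) g) :
    f + g ≠ 0 ∧ v.ord (f + g) = v.ord f := by
  rcases hg with rfl | hg
  · rw [add_zero]; exact ⟨hf, rfl⟩
  · have h1 : v.ord (f + g) = v.ord f := ord_add_eq_of_lt v hf (by omega)
    refine ⟨?_, h1⟩
    intro h0
    have : g = -f := by linear_combination h0
    rw [this, ord_neg] at hg
    omega

end OrdGe

section Rel

variable {K F : Type*} [Field K] [Field F] [Algebra K F]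

theorem aevalAeval_eq_eval₂ (t x : F) (P : K[X][Y]) :
    aevalAeval t x P = P.eval₂ ((aeval t : K[X] →ₐ[K] F) : K[X] →+* F) x := by
  induction P using Polynomial.induction_on' with
  | add p q hp hq => rw [map_add, eval₂_add, hp, hq]
  | monomial n p =>
    rw [eval₂_monomial, ← C_mul_X_pow_eq_monomial, map_mul, map_pow, aevalAeval_C, aevalAeval_Y]
    rfl

/-- a nonzero polynomial relation between `t` and `x`. -/
theorem exists_relation (t : F) (ht : Transcendental K t) [FiniteDimensional K⟮t⟯ F] (x : F) :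
    ∃ μ : K[X][Y], μ ≠ 0 ∧ aevalAeval t x μ = 0 := by
  have h1 : IsAlgebraic K⟮t⟯ x := Algebra.IsAlgebraic.isAlgebraic x
  have h2 : IsAlgebraic (Algebra.adjoin K {t}) x :=
    (IsFractionRing.isAlgebraic_iff (Algebra.adjoin K {t}) K⟮t⟯ F).mpr h1
  obtain ⟨q, hq, hqx⟩ := h2
  let e := Polynomial.algEquivOfTranscendental K t ht
  refine ⟨q.map (e.symm : Algebra.adjoin K {t} →+* K[X]), ?_, ?_⟩
  · rwa [Ne, Polynomial.map_eq_zero_iff e.symm.injective]
  · rw [aevalAeval_eq_eval₂, eval₂_map]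
    have : (((aeval t : K[X] →ₐ[K] F) : K[X] →+* F).comp (e.symm : Algebra.adjoin K {t} →+* K[X]))
        = algebraMap (Algebra.adjoin K {t}) F := by
      ext b
      obtain ⟨p, rfl⟩ := e.surjective b
      simp only [RingHom.comp_apply, RingHom.coe_coe, AlgEquiv.symm_apply_apply]
      simp [e]
    rw [this]
    exact hqx

/-- a polynomial relation between `t` and `x`, separable in `x`. -/
theorem exists_separable_relation [CharZero K] (t : F) (ht : Transcendental K t)
    [FiniteDimensional K⟮t⟯ F] (x : F) :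
    ∃ μ : K[X][Y], aevalAeval t x μ = 0 ∧ aevalAeval t x (derivative μ) ≠ 0 := by
  classical
  have hex : ∃ n : ℕ, ∃ μ : K[X][Y], μ ≠ 0 ∧ aevalAeval t x μ = 0 ∧ μ.natDegree = n := by
    obtain ⟨μ, h0, h1⟩ := exists_relation t ht x
    exact ⟨_, μ, h0, h1, rfl⟩
  obtain ⟨μ, h0, h1, h2⟩ := Nat.find_spec hex
  refine ⟨μ, h1, fun h3 => ?_⟩
  have hdeg : μ.natDegree ≠ 0 := by
    intro hd
    rw [Polynomial.eq_C_of_natDegree_eq_zero hd, aevalAeval_C] at h1
    have : μ.coeff 0 = 0 := by
      by_contra hne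
      exact ht ⟨_, hne, h1⟩
    apply h0
    rw [Polynomial.eq_C_of_natDegree_eq_zero hd, this, C_0]
  have hd0 : derivative μ ≠ 0 := by
    intro hd
    exact hdeg (Polynomial.derivative_eq_zero.mp hd)
  have hlt : (derivative μ).natDegree < Nat.find hex := by
    rw [← h2]
    exact Polynomial.natDegree_derivative_lt hdeg
  exact Nat.find_min hex hlt ⟨_, hd0, h3, rfl⟩

end Rel

variable {K F : Type*} [Field K] [Field F] [Algebra K F] [IsAlgClosed K] [IsFF1 K F]

/-- Taylor truncation at a place with respect to a uniformizer `t - a`. -/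
theorem exists_truncation (v : Place K F) {t : F} {a : K}
    (h : v.ord (t - algebraMap K F a) = 1) {x : F} (hx : 0 ≤ v.ord x) (N : ℕ) :
    ∃ (p : K[X]) (z : F), 0 ≤ v.ord z ∧ x = aeval t p + (t - algebraMap K F a) ^ N * z := by
  have hπ0 : t - algebraMap K F a ≠ 0 := ne_zero_of_ord_ne_zero v (by omega)
  induction N with
  | zero => exact ⟨0, x, hx, by simp⟩
  | succ N ih =>
    obtain ⟨p, z, hz, hxz⟩ := ih
    refine ⟨p + C (eval v z) * (X - C a) ^ N,
      (z - algebraMap K F (eval v z)) / (t - algebraMap K F a), ?_, ?_⟩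
    · rcases sub_eval_eq_zero_or_ord_pos v hz with h1 | h1
      · rw [← h1, sub_self, zero_div, v.ord_zero]
      · have h2 : z - algebraMap K F (eval v z) ≠ 0 := ne_zero_of_ord_ne_zero v (by omega)
        rw [div_eq_mul_inv, v.ord_mul h2 (inv_ne_zero hπ0), v.ord_inv, h]
        omega
    · rw [hxz]
      simp only [map_add, map_mul, aeval_C, map_pow, map_sub, aeval_X]
      field_simp
      ring

/-- the order at `v` of a polynomial in `t`, where `t - a` is a uniformizer at `v`. -/
theorem exists_eq_pow_mul_of_ord (v : Place K F) {t : F} {a : K}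
    (h : v.ord (t - algebraMap K F a) = 1) (q : K[X]) (hq : q ≠ 0) :
    ∃ (m : ℕ) (q₁ : K[X]), q = (X - C a) ^ m * q₁ ∧ q₁.eval a ≠ 0 ∧ aeval t q ≠ 0 ∧
      v.ord (aeval t q) = m := by
  have hπ0 : t - algebraMap K F a ≠ 0 := ne_zero_of_ord_ne_zero v (by omega)
  have ht : 0 ≤ v.ord t := ord_nonneg_of_ord_sub_pos v (c := a) (by omega)
  have hta : eval v t = a := eval_eq_of_ord_sub_pos v (by omega)
  obtain ⟨q₁, hq₁, hnd⟩ := q.exists_eq_pow_rootMultiplicity_mul_and_not_dvd hq a
  have hq₁a : q₁.eval a ≠ 0 := fun h0 => hnd (dvd_iff_isRoot.mpr h0)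
  have h1 : eval v (aeval t q₁) ≠ 0 := by rwa [eval_aeval v ht, hta]
  have h2 := ord_aeval_nonneg v ht q₁
  rw [Ne, eval_eq_zero_iff v h2] at h1
  push Not at h1
  have h3 : aeval t q = (t - algebraMap K F a) ^ (rootMultiplicity a q) * aeval t q₁ := by
    conv_lhs => rw [hq₁]
    simp
  refine ⟨_, q₁, hq₁, hq₁a, ?_, ?_⟩
  · rw [h3]; exact mul_ne_zero (pow_ne_zero _ hπ0) h1.1
  · rw [h3, v.ord_mul (pow_ne_zero _ hπ0) h1.1, ord_pow, h]
    omega

theorem pow_dvd_of_ordGe (v : Place K F) {t : F} {a : K}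
    (h : v.ord (t - algebraMap K F a) = 1) (q : K[X]) (n : ℕ) (hq : OrdGe v n (aeval t q)) :
    (X - C a) ^ n ∣ q := by
  rcases eq_or_ne q 0 with rfl | hq0
  · exact dvd_zero _
  obtain ⟨m, q₁, h1, -, h3, h4⟩ := exists_eq_pow_mul_of_ord v h q hq0
  have h5 := hq.le_ord h3
  rw [h1]
  exact Dvd.dvd.mul_right (pow_dvd_pow _ (by omega)) _

omit [IsAlgClosed K] [IsFF1 K F] in
theorem adjoin_pair_eq_top_of_mem {t x z : F}
    (hgen : IntermediateField.adjoin K ({t, x} : Set F) = ⊤)
    (hx : x ∈ IntermediateField.adjoin K ({t, z} : Set F)) :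
    IntermediateField.adjoin K ({t, z} : Set F) = ⊤ := by
  rw [eq_top_iff, ← hgen, IntermediateField.adjoin_le_iff]
  rintro y (rfl | rfl)
  · exact subset_adjoin K _ (Set.mem_insert _ _)
  · exact hx

omit [IsAlgClosed K] [IsFF1 K F] in
theorem exists_primitive_pair [CharZero K] (t : F) [FiniteDimensional K⟮t⟯ F] :
    ∃ x : F, IntermediateField.adjoin K ({t, x} : Set F) = ⊤ := by
  have : CharZero K⟮t⟯ := charZero_of_injective_algebraMap (algebraMap K K⟮t⟯).injective
  obtain ⟨x, hx⟩ := Field.exists_primitive_element K⟮t⟯ F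
  refine ⟨x, ?_⟩
  have h1 := IntermediateField.adjoin_adjoin_left K ({t} : Set F) ({x} : Set F)
  rw [hx] at h1
  rw [Set.insert_eq, ← h1]
  rfl

omit [IsAlgClosed K] [IsFF1 K F] in
theorem aeval_mem_adjoin_pair (t z : F) (p : K[X]) :
    aeval t p ∈ IntermediateField.adjoin K ({t, z} : Set F) := by
  have ht : t ∈ IntermediateField.adjoin K ({t, z} : Set F) :=
    subset_adjoin K _ (Set.mem_insert _ _)
  have h := Polynomial.aeval_algebraMap_apply F
    (⟨t, ht⟩ : IntermediateField.adjoin K ({t, z} : Set F)) p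
  have h' : aeval t p = ((aeval (⟨t, ht⟩ : IntermediateField.adjoin K ({t, z} : Set F)) p :
      IntermediateField.adjoin K ({t, z} : Set F)) : F) := h
  rw [h']
  exact Subtype.property _

/-- **(S)** every place `v`, with a coordinate `t` such that `t - a` is a uniformizer at `v`, is a
smooth point of a plane model `G(t, z) = 0` of `F`. -/
theorem exists_smooth_model [CharZero K] (v : Place K F) (t : F) (a : K)
    (h : v.ord (t - algebraMap K F a) = 1) :
    ∃ (z : F) (G : K[X][Y]), LiesOver v t z a (eval v z) ∧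
      IntermediateField.adjoin K ({t, z} : Set F) = ⊤ ∧ aevalAeval t z G = 0 ∧
      (derivative G).evalEval a (eval v z) ≠ 0 := by
  have hπ0 : t - algebraMap K F a ≠ 0 := ne_zero_of_ord_ne_zero v (by omega)
  have ht : 0 ≤ v.ord t := ord_nonneg_of_ord_sub_pos v (c := a) (by omega)
  have hta : eval v t = a := eval_eq_of_ord_sub_pos v (by omega)
  have httr : Transcendental K t := by
    apply transcendental_of_forall_ne
    rintro c rfl
    rw [← map_sub, ord_algebraMap] at h
    omega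
  have : FiniteDimensional K⟮t⟯ F := IsFF1.finite t httr
  obtain ⟨x₀, hx₀⟩ := exists_primitive_pair (K := K) t
  -- make the generator regular at `v`
  obtain ⟨m, x, hxdef, hx⟩ : ∃ (m : ℕ) (x : F), x = x₀ * (t - algebraMap K F a) ^ m ∧
      0 ≤ v.ord x := by
    refine ⟨(-v.ord x₀).toNat, _, rfl, ?_⟩
    rcases eq_or_ne x₀ 0 with rfl | h0
    · simp
    · rw [v.ord_mul h0 (pow_ne_zero _ hπ0), ord_pow, h]
      have := Int.self_le_toNat (-v.ord x₀)
      omega
  obtain ⟨μ, hμ, hμ'⟩ := exists_separable_relation t httr x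
  obtain ⟨r, hr⟩ : ∃ r : ℕ, v.ord (aevalAeval t x (derivative μ)) = r :=
    ⟨(v.ord (aevalAeval t x (derivative μ))).toNat,
      (Int.toNat_of_nonneg (ord_aevalAeval_nonneg_and_eval v ht hx _).1).symm⟩
  obtain ⟨p, z, hz, hxz⟩ := exists_truncation v h hx (r + 1)
  have hreg : ∀ P : K[X][Y], OrdGe v 0 (aevalAeval t z P) := fun P =>
    ordGe_zero_iff.mpr (ord_aevalAeval_nonneg_and_eval v ht hz P).1
  have hπge : ∀ n : ℕ, OrdGe v n ((t - algebraMap K F a) ^ n) := fun n =>
    OrdGe.of_le (by rw [ord_pow, h, mul_one])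
  have hzge : OrdGe v 0 z := ordGe_zero_iff.mpr hz
  -- substitution `Y ↦ p + (X - a)^(r+1) Y`
  have hφC : ((aevalAeval t z : K[X][Y] →ₐ[K] F) : K[X][Y] →+* F).comp C
      = ((aeval t : K[X] →ₐ[K] F) : K[X] →+* F) := by
    ext q
    · simp
    · simp
  obtain ⟨u₁, hφu₁⟩ : ∃ u₁ : K[X][Y], aevalAeval t z u₁ = (t - algebraMap K F a) ^ (r + 1) * z := by
    refine ⟨C ((X - C a) ^ (r + 1)) * Y, ?_⟩
    rw [map_mul, aevalAeval_C, aevalAeval_Y]; simp
  have hφu : aevalAeval t z (C p + u₁ : K[X][Y]) = x := by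
    rw [map_add, hφu₁, aevalAeval_C, hxz]
  have hφ : ∀ P : K[X][Y], aevalAeval t z ((P.map C).eval (C p + u₁))
      = aevalAeval t x P := by
    intro P
    rw [eval_map, aevalAeval_eq_eval₂ t x P, ← hφC, ← hφu]
    exact Polynomial.hom_eval₂ P C ((aevalAeval t z : K[X][Y] →ₐ[K] F) : K[X][Y] →+* F) _
  have hφ0 : ∀ P : K[X][Y], (P.map C).eval (C p : K[X][Y]) = C (P.eval p) := by
    intro P
    rw [eval_map, eval₂_at_apply]
  obtain ⟨k, hk⟩ := binomExpansion (μ.map C) (C p : K[X][Y]) u₁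
  obtain ⟨k', hk'⟩ := sub_dvd_eval_sub (C p + u₁ : K[X][Y]) (C p)
    ((derivative μ).map C)
  rw [derivative_map, hφ0, hφ0] at hk
  rw [hφ0, add_sub_cancel_left] at hk'
  have hk1 := congrArg (aevalAeval t z) hk
  have hk1' := congrArg (aevalAeval t z) hk'
  rw [hφ, hμ, map_add, map_add, map_mul, map_mul, map_pow, hφu₁, aevalAeval_C, aevalAeval_C] at hk1
  rw [map_sub, hφ, map_mul, hφu₁, aevalAeval_C] at hk1'
  -- `β = μ_Y (t, p(t))` has order `r`
  have hβ : aeval t ((derivative μ).eval p) ≠ 0 ∧ v.ord (aeval t ((derivative μ).eval p)) = r := by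
    have e : aeval t ((derivative μ).eval p) = aevalAeval t x (derivative μ)
        + -((t - algebraMap K F a) ^ (r + 1) * z * aevalAeval t z k') := by
      rw [← hk1']; ring
    rw [e, ← hr]
    apply ord_add_of_ordGe hμ'
    rw [hr]
    have := (((hπge (r + 1)).mul hzge).mul (hreg k')).neg
    simpa using this
  have hβ0 : (derivative μ).eval p ≠ 0 := by
    intro h0
    apply hβ.1
    rw [h0, map_zero]
  obtain ⟨m', β₁, hβ₁, hβ₁a, -, hm'⟩ := exists_eq_pow_mul_of_ord v h _ hβ0
  have hm'r : m' = r := by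
    have := hβ.2
    omega
  subst hm'r
  -- `α = μ (t, p(t))` has order at least `2 r + 1`
  have hα : OrdGe v ((m' + (m' + 1) : ℕ) : ℤ) (aeval t (μ.eval p)) := by
    have e : aeval t (μ.eval p) = -(aeval t ((derivative μ).eval p)
        * ((t - algebraMap K F a) ^ (m' + 1) * z)
        + aevalAeval t z k * ((t - algebraMap K F a) ^ (m' + 1) * z) ^ 2) := by
      linear_combination -hk1
    rw [e]
    apply OrdGe.neg
    apply OrdGe.add
    · have := (OrdGe.of_le hβ.2.ge).mul ((hπge (m' + 1)).mul hzge)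
      refine this.mono ?_
      push_cast; omega
    · have := (hreg k).mul (((hπge (m' + 1)).mul hzge).mul ((hπge (m' + 1)).mul hzge))
      rw [← pow_two] at this
      refine this.mono ?_
      push_cast; omega
  obtain ⟨α₁, hα₁⟩ := pow_dvd_of_ordGe v h _ _ hα
  refine ⟨z, C α₁ + C β₁ * Y + C (X - C a) * (k * Y ^ 2), ⟨ht, hz, hta, rfl⟩, ?_, ?_, ?_⟩
  · apply adjoin_pair_eq_top_of_mem hx₀
    have ht' : t ∈ IntermediateField.adjoin K ({t, z} : Set F) :=
      subset_adjoin K _ (Set.mem_insert _ _)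
    have hz' : z ∈ IntermediateField.adjoin K ({t, z} : Set F) :=
      subset_adjoin K _ (Set.mem_insert_of_mem _ rfl)
    have hπ' : t - algebraMap K F a ∈ IntermediateField.adjoin K ({t, z} : Set F) :=
      sub_mem ht' (IntermediateField.algebraMap_mem _ a)
    have e : x₀ = (aeval t p + (t - algebraMap K F a) ^ (m' + 1) * z)
        * ((t - algebraMap K F a) ^ m)⁻¹ := by
      rw [← hxz, hxdef]; field_simp
    rw [e]
    exact mul_mem (add_mem (aeval_mem_adjoin_pair t z p) (mul_mem (pow_mem hπ' _) hz'))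
      (inv_mem (pow_mem hπ' _))
  · have e1 : aeval t (μ.eval p) = (t - algebraMap K F a) ^ (m' + (m' + 1)) * aeval t α₁ := by
      rw [hα₁]; simp
    have e2 : aeval t ((derivative μ).eval p) = (t - algebraMap K F a) ^ m' * aeval t β₁ := by
      rw [hβ₁]; simp
    have e3 : aevalAeval t z (C α₁ + C β₁ * Y + C (X - C a) * (k * Y ^ 2) : K[X][Y])
        = aeval t α₁ + aeval t β₁ * z + (t - algebraMap K F a) * (aevalAeval t z k * z ^ 2) := by
      rw [map_add, map_add, map_mul, map_mul, map_mul, map_pow, aevalAeval_C, aevalAeval_C,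
        aevalAeval_C, aevalAeval_Y]
      simp
    have e4 : (t - algebraMap K F a) ^ (m' + (m' + 1))
        * aevalAeval t z (C α₁ + C β₁ * Y + C (X - C a) * (k * Y ^ 2) : K[X][Y]) = 0 := by
      rw [e3, hk1, e1, e2]
      ring
    exact (mul_eq_zero.mp e4).resolve_left (pow_ne_zero _ hπ0)
  · have e : derivative (C α₁ + C β₁ * Y + C (X - C a) * (k * Y ^ 2) : K[X][Y])
        = C β₁ + C (X - C a) * derivative (k * Y ^ 2) := by
      simp only [derivative_add, derivative_C, derivative_C_mul, derivative_X, mul_one, zero_add]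
    rw [e, evalEval_add, evalEval_mul, evalEval_C, evalEval_C]
    simpa using hβ₁a

end Fermat.Agent.S27
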